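/-
S25 package DICT, leaf (UNIT) of `DICT/Plan.lean` (helper851): the sections of the structure
sheaf over a two-chart atlas form the unit glued module.  helper8090.

Imports only `DICT/Atlas.lean` (helper5771 verbatim) and `A1/Basic.lean` (frozen interface).
All auxiliary declarations live in `namespace Fermat.Agent.S25.DICT.Unit`.
-/
import Fermat.Agent.S25.DICT.ToGlued
import Fermat.Agent.S25.A1.Basic

set_option autoImplicit false

universe u

open CategoryTheory AlgebraicGeometry TopologicalSpace Opposite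

namespace Fermat.Agent.S25.DICT.H8090

namespace Unit

variable {X : Scheme.{u}} {A : CommRingCat.{u}} (φ : Spec A ⟶ X) [IsOpenImmersion φ]

/-- The chart ring map `A → Γ(X, φ(⊤))` is an isomorphism. -/
instance isIso_chartRes_top : IsIso (chartRes φ (⊤ : (Spec A).Opens)) := by
  have h : (Spec A).presheaf.map (⊤ : (Spec A).Opens).leTop.op = 𝟙 _ := by
    rw [Subsingleton.elim (⊤ : (Spec A).Opens).leTop (𝟙 _), op_id, CategoryTheory.Functor.map_id]
  unfold chartRes
  rw [h, Category.id_comp]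
  infer_instance

lemma bijective_chartRes_top : Function.Bijective (chartRes φ (⊤ : (Spec A).Opens)) :=
  ConcreteCategory.bijective_of_isIso (chartRes φ (⊤ : (Spec A).Opens))

/-- Sections of the structure sheaf (as a module) over the chart `φ`: the map `A → Γ(O|_φ, ⊤)`,
`a ↦ chartRes φ ⊤ a`. -/
noncomputable def unitMap :
    A →ₗ[A] Γ(Scheme.Modules.restrict (SheafOfModules.unit X.ringCatSheaf : X.Modules) φ, ⊤) where
  toFun a := (show Γ((SheafOfModules.unit X.ringCatSheaf : X.Modules), φ ''ᵁ ⊤) from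
    chartRes φ ⊤ a)
  map_add' a b := map_add (chartRes φ ⊤).hom a b
  map_smul' a b :=
    (map_mul (chartRes φ ⊤).hom a b).trans
      (smul_restrict_chart φ (SheafOfModules.unit X.ringCatSheaf : X.Modules) ⊤ a _).symm

lemma unitMap_apply (a : A) :
    unitMap φ a = (show Γ((SheafOfModules.unit X.ringCatSheaf : X.Modules), φ ''ᵁ ⊤) from
      chartRes φ ⊤ a) := rfl

lemma bijective_unitMap : Function.Bijective (unitMap (X := X) φ) :=
  bijective_chartRes_top φ

/-- `A ≃ Γ(O|_φ, ⊤)` as `A`-modules. -/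
noncomputable def unitEquiv :
    A ≃ₗ[A] Γ(Scheme.Modules.restrict (SheafOfModules.unit X.ringCatSheaf : X.Modules) φ, ⊤) :=
  LinearEquiv.ofBijective (unitMap φ) (bijective_unitMap φ)

lemma unitEquiv_apply (a : A) : unitEquiv (X := X) φ a = unitMap φ a := rfl

variable {B : CommRingCat.{u}} (r : A ⟶ B) (ψ : Spec B ⟶ X) [IsOpenImmersion ψ]
  (hψ : ψ = Spec.map r ≫ φ)

/-- Compatibility of `unitMap` with restriction to a smaller chart. -/
lemma resChart_unitMap (a : A) :
    resChart φ r ψ hψ (SheafOfModules.unit X.ringCatSheaf : X.Modules) (unitMap φ a) =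
      unitMap ψ (r a) :=
  chartRes_comp φ r ψ hψ ⊤ ⊤ le_top a

end Unit

variable {R : Type u} [CommRing R] {𝔹 : TwoChart R} {X : Scheme.{u}} (𝒜 : Atlas X 𝔹)

/-- **(UNIT)** The sections of the structure sheaf form the unit glued module. -/
theorem unit_iso_toGlued
    [(SheafOfModules.unit X.ringCatSheaf : X.Modules).IsQuasicoherent] :
    Nonempty ((GluedModule.unit 𝔹).Iso
      (𝒜.toGlued (SheafOfModules.unit X.ringCatSheaf : X.Modules))) :=
  ⟨{ e₁ := Unit.unitEquiv (A := CommRingCat.of 𝔹.B₁) 𝒜.φ₁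
     e₂ := Unit.unitEquiv (A := CommRingCat.of 𝔹.B₂) 𝒜.φ₂
     e₁₂ := Unit.unitEquiv (A := CommRingCat.of 𝔹.B₁₂) 𝒜.φ₁₂
     comm₁ := fun n =>
       (Unit.resChart_unitMap (A := CommRingCat.of 𝔹.B₁) 𝒜.φ₁ (ρ₁ 𝔹) 𝒜.φ₁₂ 𝒜.φ₁₂_eq₁ n).symm
     comm₂ := fun n =>
       (Unit.resChart_unitMap (A := CommRingCat.of 𝔹.B₂) 𝒜.φ₂ (ρ₂ 𝔹) 𝒜.φ₁₂ 𝒜.φ₁₂_eq₂ n).symm }⟩

end Fermat.Agent.S25.DICT.H8090
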